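import Mathlib
import Fermat.Agent.S05.AddSub

/-!
# S05 / M3 (independent backup implementation, helper90)

Torsion integrality for Weierstrass curves over a field `L` with a valuation subring `A`
containing the coefficients: a point of odd prime order `p` (with `2` and `p` units of `A`)
has its `x`-coordinate in `A`.  Also: `E₁ = {P | P = 0 ∨ x(P) ∉ A}` is closed under the group law.
-/

set_option autoImplicit false

namespace Fermat.Agent.S05.H90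

open WeierstrassCurve IsLocalRing

universe u

section Abstract

variable {R : Type u} [CommRing R] [IsLocalRing R]

/-- One step of the recurrence `X_{k+1} + X_{k-1} = N/D`. -/
lemma rec_step (b₂ b₄ b₆ b₈ X1 Xk Xm Xp ck cm : R) (hX1 : X1 ∈ maximalIdeal R)
    (hk : Xk = ck * X1) (hm : Xm = cm * X1)
    (h : (Xp + Xm) * (1 - b₄ * (Xk * X1) - b₆ * (Xk + X1) * (Xk * X1) - b₈ * (Xk * X1) ^ 2) =
      2 * (Xk + X1) + b₂ * (Xk * X1) + b₄ * (Xk + X1) * (Xk * X1) + b₆ * (Xk * X1) ^ 2) :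
    ∃ ε ∈ maximalIdeal R, Xp = (2 * ck + 2 - cm + ε) * X1 := by
  subst hk hm
  set μ₀ : R := b₄ * ck + b₆ * (ck + 1) * ck * X1 + b₈ * ck ^ 2 * X1 ^ 2 with hμ₀
  set ν₀ : R := b₂ * ck + b₄ * (ck + 1) * ck * X1 + b₆ * ck ^ 2 * X1 ^ 2 with hν₀
  have hμ : X1 * (X1 * μ₀) ∈ maximalIdeal R := Ideal.mul_mem_right _ _ hX1
  obtain ⟨u, hu⟩ := (isUnit_one_sub_self_of_mem_nonunits _
    ((mem_maximalIdeal _).mp hμ)).exists_right_inv
  refine ⟨X1 * ((2 * ck + 2) * X1 * μ₀ * u + ν₀ * u), Ideal.mul_mem_right _ _ hX1, ?_⟩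
  linear_combination u * h - (Xp + cm * X1) * hu + X1 * (2 * ck + 2) * hu

/-- The base case `X₂ = (4 + ε) X₁`. -/
lemma dbl_step (b₂ b₄ b₆ b₈ X1 X2 : R) (hX1 : X1 ∈ maximalIdeal R)
    (h : X2 * (1 - b₄ * X1 ^ 2 - 2 * b₆ * X1 ^ 3 - b₈ * X1 ^ 4) =
      4 * X1 + b₂ * X1 ^ 2 + 2 * b₄ * X1 ^ 3 + b₆ * X1 ^ 4) :
    ∃ ε ∈ maximalIdeal R, X2 = (4 + ε) * X1 := by
  set μ₀ : R := b₄ + 2 * b₆ * X1 + b₈ * X1 ^ 2 with hμ₀
  set ν₀ : R := b₂ + 2 * b₄ * X1 + b₆ * X1 ^ 2 with hν₀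
  have hμ : X1 * (X1 * μ₀) ∈ maximalIdeal R := Ideal.mul_mem_right _ _ hX1
  obtain ⟨u, hu⟩ := (isUnit_one_sub_self_of_mem_nonunits _
    ((mem_maximalIdeal _).mp hμ)).exists_right_inv
  refine ⟨X1 * (4 * X1 * μ₀ * u + ν₀ * u), Ideal.mul_mem_right _ _ hX1, ?_⟩
  linear_combination u * h - X2 * hu + X1 * 4 * hu

/-- The abstract recurrence argument: `X_k = (k² + ε_k) X₁` for `1 ≤ k ≤ p - 1`, and the
symmetries `X_{p-1} = X₁`, `X_{p-2} = X₂` force `2` to be a non-unit (`p = n + 3`). -/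
theorem sq_recurrence_false [IsDomain R] (b₂ b₄ b₆ b₈ : R) (X : ℕ → R) (n : ℕ)
    (hX1 : X 1 ∈ maximalIdeal R) (hX1' : X 1 ≠ 0)
    (hdbl : X 2 * (1 - b₄ * X 1 ^ 2 - 2 * b₆ * X 1 ^ 3 - b₈ * X 1 ^ 4) =
      4 * X 1 + b₂ * X 1 ^ 2 + 2 * b₄ * X 1 ^ 3 + b₆ * X 1 ^ 4)
    (hrec : ∀ k, 1 ≤ k → k ≤ n → (X (k + 2) + X k) *
        (1 - b₄ * (X (k + 1) * X 1) - b₆ * (X (k + 1) + X 1) * (X (k + 1) * X 1)
          - b₈ * (X (k + 1) * X 1) ^ 2) =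
        2 * (X (k + 1) + X 1) + b₂ * (X (k + 1) * X 1)
          + b₄ * (X (k + 1) + X 1) * (X (k + 1) * X 1) + b₆ * (X (k + 1) * X 1) ^ 2)
    (hsym1 : X (n + 2) = X 1) (hsym2 : X (n + 1) = X 2)
    (hp : IsUnit ((n + 3 : ℕ) : R)) (h2 : IsUnit (2 : R)) : False := by
  have key : ∀ k, k ≤ n → (∃ ε ∈ maximalIdeal R, X (k + 1) = (((k + 1 : ℕ) : R) ^ 2 + ε) * X 1) ∧
      (∃ ε ∈ maximalIdeal R, X (k + 2) = (((k + 2 : ℕ) : R) ^ 2 + ε) * X 1) := by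
    intro k
    induction k with
    | zero =>
      intro _
      refine ⟨⟨0, Ideal.zero_mem _, by simp⟩, ?_⟩
      obtain ⟨ε, hε, h⟩ := dbl_step b₂ b₄ b₆ b₈ (X 1) (X 2) hX1 hdbl
      refine ⟨ε, hε, ?_⟩
      rw [h]; push_cast; ring
    | succ k ih =>
      intro hk
      obtain ⟨⟨ε₁, hε₁, h₁⟩, ⟨ε₂, hε₂, h₂⟩⟩ := ih (by omega)
      refine ⟨⟨ε₂, hε₂, h₂⟩, ?_⟩
      obtain ⟨ε, hε, h⟩ := rec_step b₂ b₄ b₆ b₈ (X 1) (X (k + 1 + 1)) (X (k + 1)) (X (k + 1 + 2))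
        _ _ hX1 h₂ h₁ (hrec (k + 1) (by omega) hk)
      refine ⟨2 * ε₂ - ε₁ + ε, Ideal.add_mem _ (Ideal.sub_mem _ (Ideal.mul_mem_left _ _ hε₂) hε₁) hε,
        ?_⟩
      rw [h]; push_cast; ring
  obtain ⟨⟨ε₁, hε₁, h₁⟩, ⟨ε₂, hε₂, h₂⟩⟩ := key n le_rfl
  obtain ⟨-, ⟨ε₃, hε₃, h₃⟩⟩ := key 0 (Nat.zero_le _)
  have hpm : ((n + 3 : ℕ) : R) ∉ maximalIdeal R := fun h => (mem_maximalIdeal _).mp h hp
  -- first symmetry
  have e1 : (((n + 2 : ℕ) : R) ^ 2 + ε₂) = 1 := by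
    have : (((n + 2 : ℕ) : R) ^ 2 + ε₂) * X 1 = 1 * X 1 := by rw [← h₂, hsym1, one_mul]
    exact mul_right_cancel₀ hX1' this
  have m1 : ((n + 3 : ℕ) : R) * ((n : R) + 1) ∈ maximalIdeal R := by
    have : ((n + 3 : ℕ) : R) * ((n : R) + 1) = -ε₂ := by
      push_cast at e1 ⊢; linear_combination e1
    rw [this]; exact Ideal.neg_mem_iff _ |>.mpr hε₂
  have m1' : ((n : R) + 1) ∈ maximalIdeal R :=
    ((Ideal.IsPrime.mem_or_mem inferInstance m1).resolve_left hpm)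
  -- second symmetry
  have e2 : (((n + 1 : ℕ) : R) ^ 2 + ε₁) = (((0 + 2 : ℕ) : R) ^ 2 + ε₃) := by
    have : (((n + 1 : ℕ) : R) ^ 2 + ε₁) * X 1 = (((0 + 2 : ℕ) : R) ^ 2 + ε₃) * X 1 := by
      rw [← h₁, ← h₃, hsym2]
    exact mul_right_cancel₀ hX1' this
  have m2 : ((n + 3 : ℕ) : R) * ((n : R) - 1) ∈ maximalIdeal R := by
    have : ((n + 3 : ℕ) : R) * ((n : R) - 1) = ε₃ - ε₁ := by
      push_cast at e2 ⊢; linear_combination e2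
    rw [this]; exact Ideal.sub_mem _ hε₃ hε₁
  have m2' : ((n : R) - 1) ∈ maximalIdeal R :=
    ((Ideal.IsPrime.mem_or_mem inferInstance m2).resolve_left hpm)
  have m3 : (2 : R) ∈ maximalIdeal R := by
    have : (2 : R) = ((n : R) + 1) - ((n : R) - 1) := by ring
    rw [this]; exact Ideal.sub_mem _ m1' m2'
  exact (mem_maximalIdeal _).mp m3 h2

end Abstract

section FieldIdentities

variable {F : Type u} [Field F]

/-- The product and sum identities rewritten in the inverse coordinates `X = 1/x`. -/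
lemma inv_form (b₂ b₄ b₆ b₈ xp xm x₁ x₂ : F) (h₁ : x₁ ≠ 0) (h₂ : x₂ ≠ 0)
    (hprod : xp * xm * (x₁ - x₂) ^ 2 = (x₁ * x₂) ^ 2 - b₄ * (x₁ * x₂) - b₆ * (x₁ + x₂) - b₈)
    (hsum : (xp + xm) * (x₁ - x₂) ^ 2 =
      2 * (x₁ + x₂) * (x₁ * x₂) + b₂ * (x₁ * x₂) + b₄ * (x₁ + x₂) + b₆) :
    xp * xm * (x₁⁻¹ - x₂⁻¹) ^ 2 = 1 - b₄ * (x₁⁻¹ * x₂⁻¹) - b₆ * (x₁⁻¹ + x₂⁻¹) * (x₁⁻¹ * x₂⁻¹)
        - b₈ * (x₁⁻¹ * x₂⁻¹) ^ 2 ∧
    (xp + xm) * (x₁⁻¹ - x₂⁻¹) ^ 2 = 2 * (x₁⁻¹ + x₂⁻¹) + b₂ * (x₁⁻¹ * x₂⁻¹)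
        + b₄ * (x₁⁻¹ + x₂⁻¹) * (x₁⁻¹ * x₂⁻¹) + b₆ * (x₁⁻¹ * x₂⁻¹) ^ 2 := by
  constructor
  · field_simp
    linear_combination hprod
  · field_simp
    linear_combination hsum

/-- The duplication identity rewritten in the inverse coordinate. -/
lemma inv_form_dbl (b₂ b₄ b₆ b₈ x' x : F) (h : x ≠ 0)
    (hdbl : x' * (4 * x ^ 3 + b₂ * x ^ 2 + 2 * b₄ * x + b₆) =
      x ^ 4 - b₄ * x ^ 2 - 2 * b₆ * x - b₈) :
    x' * (4 * x⁻¹ + b₂ * x⁻¹ ^ 2 + 2 * b₄ * x⁻¹ ^ 3 + b₆ * x⁻¹ ^ 4) =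
      1 - b₄ * x⁻¹ ^ 2 - 2 * b₆ * x⁻¹ ^ 3 - b₈ * x⁻¹ ^ 4 := by
  field_simp
  linear_combination hdbl

end FieldIdentities

section Curve

variable {L : Type u} [Field L]

lemma b₂_mem {W : Affine L} (A : ValuationSubring L) (ha₁ : W.a₁ ∈ A) (ha₂ : W.a₂ ∈ A) :
    W.b₂ ∈ A := by
  have h4 : (4 : L) ∈ A := ofNat_mem A 4
  simp only [WeierstrassCurve.b₂]
  exact add_mem (pow_mem ha₁ 2) (mul_mem h4 ha₂)

lemma b₄_mem {W : Affine L} (A : ValuationSubring L) (ha₁ : W.a₁ ∈ A) (ha₃ : W.a₃ ∈ A)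
    (ha₄ : W.a₄ ∈ A) : W.b₄ ∈ A := by
  have h2 : (2 : L) ∈ A := ofNat_mem A 2
  simp only [WeierstrassCurve.b₄]
  exact add_mem (mul_mem h2 ha₄) (mul_mem ha₁ ha₃)

lemma b₆_mem {W : Affine L} (A : ValuationSubring L) (ha₃ : W.a₃ ∈ A) (ha₆ : W.a₆ ∈ A) :
    W.b₆ ∈ A := by
  have h4 : (4 : L) ∈ A := ofNat_mem A 4
  simp only [WeierstrassCurve.b₆]
  exact add_mem (pow_mem ha₃ 2) (mul_mem h4 ha₆)

lemma b₈_mem {W : Affine L} (A : ValuationSubring L) (ha₁ : W.a₁ ∈ A) (ha₂ : W.a₂ ∈ A)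
    (ha₃ : W.a₃ ∈ A) (ha₄ : W.a₄ ∈ A) (ha₆ : W.a₆ ∈ A) : W.b₈ ∈ A := by
  have h4 : (4 : L) ∈ A := ofNat_mem A 4
  simp only [WeierstrassCurve.b₈]
  exact sub_mem (add_mem (sub_mem (add_mem (mul_mem (pow_mem ha₁ 2) ha₆)
    (mul_mem (mul_mem h4 ha₂) ha₆)) (mul_mem (mul_mem ha₁ ha₃) ha₄)) (mul_mem ha₂ (pow_mem ha₃ 2)))
    (pow_mem ha₄ 2)

/-- `1 ∉ 𝔪`. -/
lemma one_not_mem_nonunits (A : ValuationSubring L) : (1 : L) ∉ A.nonunits := by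
  rw [A.mem_nonunits_iff, map_one]
  exact lt_irrefl _

lemma mem_of_mem_nonunits (A : ValuationSubring L) {x : L} (hx : x ∈ A.nonunits) : x ∈ A :=
  ValuationSubring.nonunits_subset hx

/-- `a ∈ A`, `x ∈ 𝔪` implies `a * x ∈ 𝔪`. -/
lemma mul_mem_nonunits (A : ValuationSubring L) {a x : L} (ha : a ∈ A) (hx : x ∈ A.nonunits) :
    a * x ∈ A.nonunits := by
  have h := (ValuationSubring.coe_mem_nonunits_iff (A := A)
    (a := ⟨x, mem_of_mem_nonunits A hx⟩)).mp hx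
  exact (ValuationSubring.coe_mem_nonunits_iff (A := A) (a := ⟨a, ha⟩ * ⟨x, _⟩)).mpr
    (Ideal.mul_mem_left _ _ h)

/-- `x ∈ 𝔪`, `a ∈ A` implies `x * a ∈ 𝔪`. -/
lemma mul_mem_nonunits' (A : ValuationSubring L) {a x : L} (hx : x ∈ A.nonunits) (ha : a ∈ A) :
    x * a ∈ A.nonunits := by
  rw [mul_comm]; exact mul_mem_nonunits A ha hx

/-- The inverse of a non-integral element is in `𝔪`. -/
lemma inv_mem_nonunits (A : ValuationSubring L) {x : L} (hx : x ∉ A) : x⁻¹ ∈ A.nonunits :=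
  A.inv_mem_nonunits_iff.mpr (Or.inr hx)

lemma ne_zero_of_not_mem (A : ValuationSubring L) {x : L} (hx : x ∉ A) : x ≠ 0 := by
  rintro rfl; exact hx A.zero_mem

variable [DecidableEq L]

/-- `E₁`: the point at infinity together with the points whose `x`-coordinate is not integral. -/
def InE1 {W : Affine L} (A : ValuationSubring L) (P : W.Point) : Prop := P = 0 ∨ xOf P ∉ A

omit [DecidableEq L] in
lemma InE1.zero {W : Affine L} (A : ValuationSubring L) : InE1 A (0 : W.Point) := Or.inl rfl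

omit [DecidableEq L] in
lemma InE1.neg {W : Affine L} (A : ValuationSubring L) {P : W.Point} (hP : InE1 A P) :
    InE1 A (-P) := by
  rcases hP with rfl | h
  · exact Or.inl (by simp)
  · exact Or.inr (by rwa [xOf_neg])

/-- `E₁` is closed under addition. -/
theorem InE1.add {W : Affine L} (A : ValuationSubring L) (ha₁ : W.a₁ ∈ A) (ha₂ : W.a₂ ∈ A)
    (ha₃ : W.a₃ ∈ A) (ha₄ : W.a₄ ∈ A) (ha₆ : W.a₆ ∈ A) {P Q : W.Point} (hP : InE1 A P)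
    (hQ : InE1 A Q) : InE1 A (P + Q) := by
  have hb₂ := b₂_mem A ha₁ ha₂
  have hb₄ := b₄_mem A ha₁ ha₃ ha₄
  have hb₆ := b₆_mem A ha₃ ha₆
  have hb₈ := b₈_mem A ha₁ ha₂ ha₃ ha₄ ha₆
  rcases hP with rfl | hP
  · rw [zero_add]; exact hQ
  rcases hQ with rfl | hQ
  · rw [add_zero]; exact Or.inr hP
  have hP0 : P ≠ 0 := by rintro rfl; exact hP A.zero_mem
  have hQ0 : Q ≠ 0 := by rintro rfl; exact hQ A.zero_mem
  have hx₁ := ne_zero_of_not_mem A hP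
  have hx₂ := ne_zero_of_not_mem A hQ
  have hX₁ := inv_mem_nonunits A hP
  have hX₂ := inv_mem_nonunits A hQ
  have hX₁A := mem_of_mem_nonunits A hX₁
  have hX₂A := mem_of_mem_nonunits A hX₂
  by_cases hx : xOf P = xOf Q
  · -- `P = Q` or `P = -Q`
    rcases (xOf_eq_iff hP0 hQ0).mp hx with rfl | rfl
    · by_cases h2 : P + P = 0
      · exact Or.inl h2
      · refine Or.inr fun hmem => ?_
        have e := inv_form_dbl _ _ _ _ _ _ hx₁ (xOf_dbl hP0 h2)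
        have hl : xOf (P + P) * (4 * (xOf P)⁻¹ + W.b₂ * (xOf P)⁻¹ ^ 2 + 2 * W.b₄ * (xOf P)⁻¹ ^ 3
            + W.b₆ * (xOf P)⁻¹ ^ 4) ∈ A.nonunits := by
          refine mul_mem_nonunits A hmem ?_
          have : 4 * (xOf P)⁻¹ + W.b₂ * (xOf P)⁻¹ ^ 2 + 2 * W.b₄ * (xOf P)⁻¹ ^ 3
              + W.b₆ * (xOf P)⁻¹ ^ 4 = (4 + W.b₂ * (xOf P)⁻¹ + 2 * W.b₄ * (xOf P)⁻¹ ^ 2
              + W.b₆ * (xOf P)⁻¹ ^ 3) * (xOf P)⁻¹ := by ring
          rw [this]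
          exact mul_mem_nonunits A (add_mem (add_mem (add_mem (ofNat_mem A 4) (mul_mem hb₂ hX₁A))
            (mul_mem (mul_mem (ofNat_mem A 2) hb₄) (pow_mem hX₁A 2)))
            (mul_mem hb₆ (pow_mem hX₁A 3))) hX₁
        rw [e] at hl
        have hr : (W.b₄ + 2 * W.b₆ * (xOf P)⁻¹ + W.b₈ * (xOf P)⁻¹ ^ 2) * (xOf P)⁻¹ * (xOf P)⁻¹
            ∈ A.nonunits :=
          mul_mem_nonunits A (mul_mem (add_mem (add_mem hb₄ (mul_mem (mul_mem (ofNat_mem A 2) hb₆)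
            hX₁A)) (mul_mem hb₈ (pow_mem hX₁A 2))) hX₁A) hX₁
        have h1 := add_mem hl hr
        have : (1 : L) = 1 - W.b₄ * (xOf P)⁻¹ ^ 2 - 2 * W.b₆ * (xOf P)⁻¹ ^ 3
            - W.b₈ * (xOf P)⁻¹ ^ 4 + (W.b₄ + 2 * W.b₆ * (xOf P)⁻¹ + W.b₈ * (xOf P)⁻¹ ^ 2)
            * (xOf P)⁻¹ * (xOf P)⁻¹ := by ring
        rw [← this] at h1
        exact one_not_mem_nonunits A h1
    · exact Or.inl (neg_add_cancel Q)
  · obtain ⟨hne, -, hprod, hsum⟩ := xOf_addsub hP0 hQ0 hx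
    refine Or.inr fun hmem => ?_
    obtain ⟨e₁, e₂⟩ := inv_form _ _ _ _ _ _ _ _ hx₁ hx₂ hprod hsum
    set X₁ := (xOf P)⁻¹ with hX₁def
    set X₂ := (xOf Q)⁻¹ with hX₂def
    set xp := xOf (P + Q) with hxp
    set xm := xOf (P - Q) with hxm
    have hδ : (X₁ - X₂) ^ 2 ∈ A.nonunits := by
      rw [pow_two]; exact mul_mem (sub_mem hX₁ hX₂) (sub_mem hX₁ hX₂)
    -- `N ∈ 𝔪`
    have hN : 2 * (X₁ + X₂) + W.b₂ * (X₁ * X₂) + W.b₄ * (X₁ + X₂) * (X₁ * X₂)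
        + W.b₆ * (X₁ * X₂) ^ 2 ∈ A.nonunits := by
      have h12 : X₁ * X₂ ∈ A.nonunits := mul_mem hX₁ hX₂
      have h12A := mem_of_mem_nonunits A h12
      exact add_mem (add_mem (add_mem (mul_mem_nonunits A (ofNat_mem A 2) (add_mem hX₁ hX₂))
        (mul_mem_nonunits A hb₂ h12)) (mul_mem_nonunits A (mul_mem hb₄ (add_mem hX₁A hX₂A)) h12))
        (mul_mem_nonunits A hb₆ (by rw [pow_two]; exact mul_mem h12 h12))
    -- `xm * δ ∈ 𝔪`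
    have h3 : xm * (X₁ - X₂) ^ 2 ∈ A.nonunits := by
      have : xm * (X₁ - X₂) ^ 2 = (xp + xm) * (X₁ - X₂) ^ 2 - xp * (X₁ - X₂) ^ 2 := by ring
      rw [this, e₂]
      exact sub_mem hN (mul_mem_nonunits A hmem hδ)
    have h4 : xp * xm * (X₁ - X₂) ^ 2 ∈ A.nonunits := by
      rw [mul_assoc]; exact mul_mem_nonunits A hmem h3
    rw [e₁] at h4
    have hμ : W.b₄ * (X₁ * X₂) + W.b₆ * (X₁ + X₂) * (X₁ * X₂) + W.b₈ * (X₁ * X₂) ^ 2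
        ∈ A.nonunits := by
      have h12 : X₁ * X₂ ∈ A.nonunits := mul_mem hX₁ hX₂
      exact add_mem (add_mem (mul_mem_nonunits A hb₄ h12)
        (mul_mem_nonunits A (mul_mem hb₆ (add_mem hX₁A hX₂A)) h12))
        (mul_mem_nonunits A hb₈ (by rw [pow_two]; exact mul_mem h12 h12))
    have h1 := add_mem h4 hμ
    have : (1 : L) = 1 - W.b₄ * (X₁ * X₂) - W.b₆ * (X₁ + X₂) * (X₁ * X₂) - W.b₈ * (X₁ * X₂) ^ 2
        + (W.b₄ * (X₁ * X₂) + W.b₆ * (X₁ + X₂) * (X₁ * X₂) + W.b₈ * (X₁ * X₂) ^ 2) := by ring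
    rw [← this] at h1
    exact one_not_mem_nonunits A h1

theorem InE1.sub {W : Affine L} (A : ValuationSubring L) (ha₁ : W.a₁ ∈ A) (ha₂ : W.a₂ ∈ A)
    (ha₃ : W.a₃ ∈ A) (ha₄ : W.a₄ ∈ A) (ha₆ : W.a₆ ∈ A) {P Q : W.Point} (hP : InE1 A P)
    (hQ : InE1 A Q) : InE1 A (P - Q) := by
  rw [sub_eq_add_neg]
  exact InE1.add A ha₁ ha₂ ha₃ ha₄ ha₆ hP (InE1.neg A hQ)

theorem InE1.nsmul {W : Affine L} (A : ValuationSubring L) (ha₁ : W.a₁ ∈ A) (ha₂ : W.a₂ ∈ A)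
    (ha₃ : W.a₃ ∈ A) (ha₄ : W.a₄ ∈ A) (ha₆ : W.a₆ ∈ A) {P : W.Point} (hP : InE1 A P) (k : ℕ) :
    InE1 A (k • P) := by
  induction k with
  | zero => rw [zero_nsmul]; exact InE1.zero A
  | succ k ih => rw [succ_nsmul]; exact InE1.add A ha₁ ha₂ ha₃ ha₄ ha₆ ih hP

theorem InE1.zsmul {W : Affine L} (A : ValuationSubring L) (ha₁ : W.a₁ ∈ A) (ha₂ : W.a₂ ∈ A)
    (ha₃ : W.a₃ ∈ A) (ha₄ : W.a₄ ∈ A) (ha₆ : W.a₆ ∈ A) {P : W.Point} (hP : InE1 A P) (k : ℤ) :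
    InE1 A (k • P) := by
  obtain ⟨n, rfl | rfl⟩ := k.eq_nat_or_neg
  · rw [natCast_zsmul]; exact InE1.nsmul A ha₁ ha₂ ha₃ ha₄ ha₆ hP n
  · rw [neg_zsmul, natCast_zsmul]; exact InE1.neg A (InE1.nsmul A ha₁ ha₂ ha₃ ha₄ ha₆ hP n)

/-- A point of `E₁` of odd prime order `p`, with `2` and `p` units of `A`, does not exist:
a nonzero point killed by `p` has integral `x`-coordinate. -/
theorem torsion_integral {W : Affine L} (A : ValuationSubring L) (ha₁ : W.a₁ ∈ A)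
    (ha₂ : W.a₂ ∈ A) (ha₃ : W.a₃ ∈ A) (ha₄ : W.a₄ ∈ A) (ha₆ : W.a₆ ∈ A)
    (h2 : A.valuation (2 : L) = 1) {p : ℕ} (hp : p.Prime) (hp2 : p ≠ 2)
    (hpA : A.valuation (p : L) = 1) {P : W.Point} (hP : P ≠ 0) (hpP : p • P = 0) :
    xOf P ∈ A := by
  classical
  by_contra hx
  have hb₂ := b₂_mem A ha₁ ha₂
  have hb₄ := b₄_mem A ha₁ ha₃ ha₄
  have hb₆ := b₆_mem A ha₃ ha₆
  have hb₈ := b₈_mem A ha₁ ha₂ ha₃ ha₄ ha₆
  obtain ⟨n, rfl⟩ : ∃ n, p = n + 3 := by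
    have := hp.two_le
    exact ⟨p - 3, by omega⟩
  -- the multiples `k • P`, `1 ≤ k ≤ n + 2`, are nonzero
  have hord : ∀ k, 1 ≤ k → k ≤ n + 2 → k • P ≠ 0 := by
    intro k hk1 hk2 hk0
    have h1 : addOrderOf P ∣ n + 3 := addOrderOf_dvd_of_nsmul_eq_zero hpP
    have h2 : addOrderOf P ∣ k := addOrderOf_dvd_of_nsmul_eq_zero hk0
    rcases (Nat.dvd_prime hp).mp h1 with h | h
    · exact hP (AddMonoid.addOrderOf_eq_one_iff.mp h)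
    · rw [h] at h2
      have := Nat.le_of_dvd (by omega) h2
      omega
  -- and have non-integral `x`-coordinate
  have hE : ∀ k, 1 ≤ k → k ≤ n + 2 → xOf (k • P) ∉ A := by
    intro k hk1 hk2
    exact (InE1.nsmul A ha₁ ha₂ ha₃ ha₄ ha₆ (Or.inr hx) k).resolve_left (hord k hk1 hk2)
  set Xs : ℕ → L := fun k => (xOf (k • P))⁻¹ with hXs
  have hXm : ∀ k, 1 ≤ k → k ≤ n + 2 → Xs k ∈ A.nonunits := fun k hk1 hk2 =>
    inv_mem_nonunits A (hE k hk1 hk2)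
  have hx0 : ∀ k, 1 ≤ k → k ≤ n + 2 → xOf (k • P) ≠ 0 := fun k hk1 hk2 =>
    ne_zero_of_not_mem A (hE k hk1 hk2)
  -- lift to the valuation ring
  let X : ℕ → A := fun k => if h : Xs k ∈ A then ⟨Xs k, h⟩ else 0
  have hXc : ∀ k, 1 ≤ k → k ≤ n + 2 → ((X k : A) : L) = Xs k := by
    intro k hk1 hk2
    simp only [X, dif_pos (mem_of_mem_nonunits A (hXm k hk1 hk2))]
  -- relations in `L`
  have r1 : Xs 1 = (xOf P)⁻¹ := by simp only [hXs, one_nsmul]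
  have rdbl : Xs 2 * (1 - W.b₄ * Xs 1 ^ 2 - 2 * W.b₆ * Xs 1 ^ 3 - W.b₈ * Xs 1 ^ 4) =
      4 * Xs 1 + W.b₂ * Xs 1 ^ 2 + 2 * W.b₄ * Xs 1 ^ 3 + W.b₆ * Xs 1 ^ 4 := by
    have h2P : P + P ≠ 0 := by
      have := hord 2 (by omega) (by omega)
      rwa [two_nsmul] at this
    have e := inv_form_dbl _ _ _ _ _ _ (ne_zero_of_not_mem A hx) (xOf_dbl hP h2P)
    have hx2 : xOf (P + P) ≠ 0 := by
      have := hx0 2 (by omega) (by omega)
      rwa [two_nsmul] at this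
    have r2 : Xs 2 = (xOf (P + P))⁻¹ := by simp only [hXs, two_nsmul]
    rw [r1, r2, ← e]
    field_simp
  have rrec : ∀ k, 1 ≤ k → k ≤ n → (Xs (k + 2) + Xs k) *
        (1 - W.b₄ * (Xs (k + 1) * Xs 1) - W.b₆ * (Xs (k + 1) + Xs 1) * (Xs (k + 1) * Xs 1)
          - W.b₈ * (Xs (k + 1) * Xs 1) ^ 2) =
        2 * (Xs (k + 1) + Xs 1) + W.b₂ * (Xs (k + 1) * Xs 1)
          + W.b₄ * (Xs (k + 1) + Xs 1) * (Xs (k + 1) * Xs 1) + W.b₆ * (Xs (k + 1) * Xs 1) ^ 2 := by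
    intro k hk1 hk2
    have hQ0 := hord (k + 1) (by omega) (by omega)
    have hadd : (k + 1) • P + P = (k + 2) • P := (succ_nsmul P (k + 1)).symm
    have hsub : (k + 1) • P - P = k • P := by rw [succ_nsmul, add_sub_cancel_right]
    have hne : xOf ((k + 1) • P) ≠ xOf P := by
      intro h
      rcases (xOf_eq_iff hQ0 hP).mp h with h | h
      · apply hord k hk1 (by omega)
        rw [← hsub, h, sub_self]
      · apply hord (k + 2) (by omega) (by omega)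
        rw [← hadd, h, neg_add_cancel]
    obtain ⟨-, -, hprod, hsum⟩ := xOf_addsub hQ0 hP hne
    rw [hadd, hsub] at hprod hsum
    obtain ⟨e₁, e₂⟩ := inv_form _ _ _ _ _ _ _ _ (hx0 (k + 1) (by omega) (by omega))
      (ne_zero_of_not_mem A hx) hprod hsum
    have hp0 := hx0 (k + 2) (by omega) (by omega)
    have hm0 := hx0 k hk1 (by omega)
    simp only [hXs, one_nsmul]
    rw [← e₁, ← e₂]
    field_simp
    ring
  have rsym1 : Xs (n + 2) = Xs 1 := by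
    have : (n + 2) • P = -P := by
      rw [eq_neg_iff_add_eq_zero, ← succ_nsmul]
      exact hpP
    simp only [hXs, one_nsmul, this, xOf_neg]
  have rsym2 : Xs (n + 1) = Xs 2 := by
    have : (n + 1) • P = -(2 • P) := by
      rw [eq_neg_iff_add_eq_zero, ← add_nsmul]
      exact hpP
    simp only [hXs, this, xOf_neg]
  -- apply the abstract recurrence argument in the local domain `A`
  have c1 := hXc 1 (by omega) (by omega)
  have c2 := hXc 2 (by omega) (by omega)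
  refine sq_recurrence_false (R := A) ⟨W.b₂, hb₂⟩ ⟨W.b₄, hb₄⟩ ⟨W.b₆, hb₆⟩ ⟨W.b₈, hb₈⟩ X n
    ?_ ?_ ?_ ?_ ?_ ?_ ?_ ?_
  · apply ValuationSubring.coe_mem_nonunits_iff.mp
    rw [c1]
    exact hXm 1 (by omega) (by omega)
  · intro h
    have h' := congrArg (Subtype.val) h
    rw [c1, r1] at h'
    exact inv_ne_zero (ne_zero_of_not_mem A hx) h'
  · apply Subtype.ext
    push_cast
    rw [c1, c2]
    exact rdbl
  · intro k hk1 hk2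
    apply Subtype.ext
    push_cast
    rw [c1, hXc k hk1 (by omega), hXc (k + 1) (by omega) (by omega),
      hXc (k + 2) (by omega) (by omega)]
    exact rrec k hk1 hk2
  · apply Subtype.ext
    rw [c1, hXc (n + 2) (by omega) (by omega)]
    exact rsym1
  · apply Subtype.ext
    rw [c2, hXc (n + 1) (by omega) (by omega)]
    exact rsym2
  · rw [A.valuation_eq_one_iff]
    push_cast at hpA ⊢
    exact hpA
  · rw [A.valuation_eq_one_iff]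
    exact h2

/-- `E₁` has no nonzero point killed by an odd prime `p` that is a unit of `A` (`2` a unit). -/
theorem InE1.eq_zero_of_nsmul {W : Affine L} (A : ValuationSubring L) (ha₁ : W.a₁ ∈ A)
    (ha₂ : W.a₂ ∈ A) (ha₃ : W.a₃ ∈ A) (ha₄ : W.a₄ ∈ A) (ha₆ : W.a₆ ∈ A)
    (h2 : A.valuation (2 : L) = 1) {p : ℕ} (hp : p.Prime) (hp2 : p ≠ 2)
    (hpA : A.valuation (p : L) = 1) {P : W.Point} (hP : InE1 A P) (hpP : p • P = 0) : P = 0 := by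
  by_contra h0
  exact hP.resolve_left h0 (torsion_integral A ha₁ ha₂ ha₃ ha₄ ha₆ h2 hp hp2 hpA h0 hpP)

end Curve

end Fermat.Agent.S05.H90
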